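/-
S28 / package M5, bridge (C3) (helper66): from the characteristic-0 degree bound
`[F_N : ℚ(j(q^N))] ≤ n` to "any `n + 1` elements of `F_N` are linearly dependent over
`ℤ_(ℓ)[j(q^N)]`".
-/
import Mathlib
import Fermat.Prelude.Def_ModularCurve_IgusaScheme

set_option autoImplicit false

noncomputable section

namespace Fermat.Agent.S28.H66

open ModularCurve ModularCurve.IgusaScheme

variable (N : ℕ) [NeZero N] (ℓ : ℕ) [Fact ℓ.Prime]

/-- `j(q^N)` as an element of the full function field `F_N`. -/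
def jNFull : ↥(modularFunctionFieldFull N) := ⟨jqN N, jqd_mem_full N dvd_rfl⟩

@[simp] theorem coe_jNFull : (jNFull N : LaurentSeries ℚ) = jqN N := rfl

/-- `x` is a quotient of two elements of `ℤ_(ℓ)[j(q^N)]`. -/
def IsFracAdjoin (x : LaurentSeries ℚ) : Prop :=
  ∃ a b : ↥(Algebra.adjoin ↥(GaloisRep.ratLocalizedAt ℓ) {jNFull N}), b ≠ 0 ∧
    x * ((b : ↥(modularFunctionFieldFull N)) : LaurentSeries ℚ)
      = ((a : ↥(modularFunctionFieldFull N)) : LaurentSeries ℚ)

variable {N ℓ}

set_option linter.unusedSectionVars false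

theorem coe_ne_zero_of_ne_zero {b : ↥(Algebra.adjoin ↥(GaloisRep.ratLocalizedAt ℓ) {jNFull N})}
    (hb : b ≠ 0) : ((b : ↥(modularFunctionFieldFull N)) : LaurentSeries ℚ) ≠ 0 := by
  intro h
  apply hb
  apply Subtype.ext
  apply Subtype.ext
  simpa using h

theorem IsFracAdjoin.add {x y : LaurentSeries ℚ} (hx : IsFracAdjoin N ℓ x)
    (hy : IsFracAdjoin N ℓ y) : IsFracAdjoin N ℓ (x + y) := by
  obtain ⟨a1, b1, hb1, h1⟩ := hx
  obtain ⟨a2, b2, hb2, h2⟩ := hy
  refine ⟨a1 * b2 + a2 * b1, b1 * b2, mul_ne_zero hb1 hb2, ?_⟩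
  push_cast
  rw [← h1, ← h2]
  ring

theorem IsFracAdjoin.mul {x y : LaurentSeries ℚ} (hx : IsFracAdjoin N ℓ x)
    (hy : IsFracAdjoin N ℓ y) : IsFracAdjoin N ℓ (x * y) := by
  obtain ⟨a1, b1, hb1, h1⟩ := hx
  obtain ⟨a2, b2, hb2, h2⟩ := hy
  refine ⟨a1 * a2, b1 * b2, mul_ne_zero hb1 hb2, ?_⟩
  push_cast
  rw [← h1, ← h2]
  ring

theorem IsFracAdjoin.inv {x : LaurentSeries ℚ} (hx : IsFracAdjoin N ℓ x) :
    IsFracAdjoin N ℓ x⁻¹ := by
  obtain ⟨a1, b1, hb1, h1⟩ := hx
  by_cases hx0 : x = 0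
  · refine ⟨0, 1, one_ne_zero, ?_⟩
    rw [hx0]
    simp
  · have hb1' := coe_ne_zero_of_ne_zero hb1
    have ha1 : a1 ≠ 0 := by
      rintro rfl
      have : x * ((b1 : ↥(modularFunctionFieldFull N)) : LaurentSeries ℚ) = 0 := by
        rw [h1]; simp
      rcases mul_eq_zero.mp this with h | h
      · exact hx0 h
      · exact hb1' h
    refine ⟨b1, a1, ha1, ?_⟩
    rw [← h1, ← mul_assoc, inv_mul_cancel₀ hx0, one_mul]

theorem isFracAdjoin_algebraMap (r : ℚ) :
    IsFracAdjoin N ℓ (algebraMap ℚ (LaurentSeries ℚ) r) := by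
  refine ⟨(r.num : ↥(Algebra.adjoin ↥(GaloisRep.ratLocalizedAt ℓ) {jNFull N})),
    (r.den : ↥(Algebra.adjoin ↥(GaloisRep.ratLocalizedAt ℓ) {jNFull N})), ?_, ?_⟩
  · intro h
    have h2 : ((r.den : ℕ) : LaurentSeries ℚ) = 0 := by
      have h3 := congrArg (fun b : ↥(Algebra.adjoin ↥(GaloisRep.ratLocalizedAt ℓ) {jNFull N}) =>
        ((b : ↥(modularFunctionFieldFull N)) : LaurentSeries ℚ)) h
      simpa using h3
    have h4 : algebraMap ℚ (LaurentSeries ℚ) (r.den : ℚ) = 0 := by rw [map_natCast]; exact h2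
    have h5 := (map_eq_zero (algebraMap ℚ (LaurentSeries ℚ))).mp h4
    exact r.den_ne_zero (by exact_mod_cast h5)
  · have h := congrArg (algebraMap ℚ (LaurentSeries ℚ)) (Rat.mul_den_eq_num r)
    rw [map_mul, map_natCast, map_intCast] at h
    simpa using h

theorem isFracAdjoin_of_mem_adjoin {x : LaurentSeries ℚ}
    (hx : x ∈ IntermediateField.adjoin ℚ {jqN N}) : IsFracAdjoin N ℓ x := by
  induction hx using IntermediateField.adjoin_induction with
  | mem y hy =>
    rw [Set.mem_singleton_iff] at hy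
    subst hy
    refine ⟨⟨jNFull N, Algebra.subset_adjoin rfl⟩, 1, one_ne_zero, ?_⟩
    simp
  | algebraMap r => exact isFracAdjoin_algebraMap r
  | add y z _ _ hy hz => exact hy.add hz
  | inv y _ hy => exact hy.inv
  | mul y z _ _ hy hz => exact hy.mul hz

variable (N ℓ)

theorem adjoin_jqN_le_full :
    IntermediateField.adjoin ℚ {jqN N} ≤ modularFunctionFieldFull N := by
  rw [IntermediateField.adjoin_le_iff]
  rintro x hx
  rw [Set.mem_singleton_iff] at hx
  subst hx
  exact jqd_mem_full N dvd_rfl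

/-- (C3) If `[F_N : ℚ(j(q^N))] ≤ n` (and finite), then any `n + 1` elements of `F_N` are linearly
dependent over `ℤ_(ℓ)[j(q^N)]`. -/
theorem exists_dep_of_relfinrank_le {n : ℕ}
    (h : 0 < IntermediateField.relfinrank (IntermediateField.adjoin ℚ {jqN N})
          (modularFunctionFieldFull N) ∧
        IntermediateField.relfinrank (IntermediateField.adjoin ℚ {jqN N})
          (modularFunctionFieldFull N) ≤ n)
    (v : Fin (n + 1) → ↥(modularFunctionFieldFull N)) :
    ∃ a : Fin (n + 1) → ↥(Algebra.adjoin ↥(GaloisRep.ratLocalizedAt ℓ) {jNFull N}),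
      a ≠ 0 ∧ ∑ i, a i • v i = 0 := by
  classical
  have hEF := adjoin_jqN_le_full N
  rw [IntermediateField.relfinrank_eq_finrank_of_le hEF] at h
  obtain ⟨hpos, hle⟩ := h
  have hfin : Module.Finite ↥(IntermediateField.adjoin ℚ {jqN N})
      ↥(IntermediateField.extendScalars hEF) := Module.finite_of_finrank_pos hpos
  -- the family, viewed in the extension over `E = ℚ(j_N)`
  let v' : Fin (n + 1) → ↥(IntermediateField.extendScalars hEF) :=
    fun i => ⟨(v i : LaurentSeries ℚ), (v i).2⟩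
  have hnot : ¬ LinearIndependent ↥(IntermediateField.adjoin ℚ {jqN N}) v' := by
    intro hli
    have := hli.fintype_card_le_finrank
    rw [Fintype.card_fin] at this
    omega
  rw [Fintype.not_linearIndependent_iff] at hnot
  obtain ⟨g, hg, i0, hi0⟩ := hnot
  -- the relation in `ℚ((q))`
  have hg' : ∑ i, (g i : LaurentSeries ℚ) * (v i : LaurentSeries ℚ) = 0 := by
    have h1 := congrArg (fun x : ↥(IntermediateField.extendScalars hEF) => (x : LaurentSeries ℚ)) hg
    simp only [AddSubmonoidClass.coe_finsetSum, ZeroMemClass.coe_zero] at h1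
    rw [← h1]
    refine Finset.sum_congr rfl fun i _ => ?_
    rfl
  -- clear denominators
  have hfrac : ∀ i, IsFracAdjoin N ℓ (g i : LaurentSeries ℚ) :=
    fun i => isFracAdjoin_of_mem_adjoin (g i).2
  choose a b hb hab using hfrac
  refine ⟨fun i => a i * ∏ j ∈ Finset.univ.erase i, b j, ?_, ?_⟩
  · intro h0
    have h1 := congrFun h0 i0
    simp only [Pi.zero_apply] at h1
    rcases mul_eq_zero.mp h1 with h2 | h2
    · have h3 := hab i0
      rw [h2] at h3
      simp only [ZeroMemClass.coe_zero] at h3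
      rcases mul_eq_zero.mp h3 with h4 | h4
      · exact hi0 (Subtype.ext h4)
      · exact coe_ne_zero_of_ne_zero (hb i0) h4
    · rw [Finset.prod_eq_zero_iff] at h2
      obtain ⟨j, -, hj⟩ := h2
      exact hb j hj
  · apply Subtype.ext
    have key : ∀ i, (((a i * ∏ j ∈ Finset.univ.erase i, b j) • v i :
        ↥(modularFunctionFieldFull N)) : LaurentSeries ℚ)
        = (((∏ j, b j : ↥(Algebra.adjoin ↥(GaloisRep.ratLocalizedAt ℓ) {jNFull N})) :
            ↥(modularFunctionFieldFull N)) : LaurentSeries ℚ)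
          * ((g i : LaurentSeries ℚ) * (v i : LaurentSeries ℚ)) := by
      intro i
      rw [← Finset.mul_prod_erase Finset.univ b (Finset.mem_univ i)]
      rw [Subalgebra.smul_def, smul_eq_mul]
      simp only [MulMemClass.coe_mul, ← hab i]
      ring
    simp only [AddSubmonoidClass.coe_finsetSum, ZeroMemClass.coe_zero]
    rw [Finset.sum_congr rfl fun i _ => key i, ← Finset.mul_sum, hg', mul_zero]

end Fermat.Agent.S28.H66
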