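/-
S28 / package M5, bridge (C2) (helper66): `j` and `j(q^N)` (and all `j(q^d)`, `d ∣ N`) are integral
over each other's `ℤ_(ℓ)`-algebra inside the function field `F_N`; consequently the finite chart
algebra is the integral closure of `ℤ_(ℓ)[j(q^N)]`.
-/
import Mathlib
import Fermat.Agent.S28.Integrality
import Fermat.Agent.S28.H66.Dep

set_option autoImplicit false

noncomputable section

namespace Fermat.Agent.S28.H66

open ModularCurve ModularCurve.IgusaScheme Polynomial

section General

variable {R A B : Type*} [CommRing R] [CommRing A] [CommRing B] [Algebra R B] [Algebra A B]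

/-- If every element of (the image of) `R` is integral over `A`, then integrality over `R`
implies integrality over `A`. -/
theorem isIntegral_of_forall_isIntegral (h : ∀ r : R, IsIntegral A (algebraMap R B r)) {x : B}
    (hx : IsIntegral R x) : IsIntegral A x := by
  let C := integralClosure A B
  let φ : R →+* C := (algebraMap R B).codRestrict C h
  have h1 : IsIntegral C x := by
    have := hx.map_of_comp_eq φ (RingHom.id B) (by ext r; rfl)
    simpa using this
  exact isIntegral_trans (R := A) (A := C) x h1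

end General

section Adjoin

variable {R B : Type*} [CommRing R] [CommRing B] [Algebra R B]

/-- Every element of `R[y]` is integral over `R[x]` if `y` is. -/
theorem isIntegral_adjoin_of_mem_adjoin {x y : B} (hxy : IsIntegral ↥(Algebra.adjoin R {x}) y)
    {r : B} (hr : r ∈ Algebra.adjoin R {y}) : IsIntegral ↥(Algebra.adjoin R {x}) r := by
  induction hr using Algebra.adjoin_induction with
  | mem z hz =>
    rw [Set.mem_singleton_iff] at hz
    subst hz
    exact hxy
  | algebraMap c =>
    have : IsIntegral ↥(Algebra.adjoin R {x})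
        (algebraMap ↥(Algebra.adjoin R {x}) B (algebraMap R ↥(Algebra.adjoin R {x}) c)) :=
      isIntegral_algebraMap
    simpa [← IsScalarTower.algebraMap_apply] using this
  | add u v _ _ hu hv => exact hu.add hv
  | mul u v _ _ hu hv => exact hu.mul hv

/-- Transitivity of "integral over the ring generated by", over an arbitrary base ring. -/
theorem isIntegral_adjoin_trans_base {x y z : B} (hxy : IsIntegral ↥(Algebra.adjoin R {x}) y)
    (hyz : IsIntegral ↥(Algebra.adjoin R {y}) z) : IsIntegral ↥(Algebra.adjoin R {x}) z :=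
  isIntegral_of_forall_isIntegral (fun r => isIntegral_adjoin_of_mem_adjoin hxy r.2) hyz

end Adjoin

set_option linter.unusedSectionVars false

variable (N : ℕ) [NeZero N] (ℓ : ℕ) [Fact ℓ.Prime]

/-- Two-variable relations can be checked on `q`-expansions. -/
theorem evalY_eval_eq_zero_of_coe {Φ : Polynomial (Polynomial ℤ)}
    {x y : ↥(modularFunctionFieldFull N)}
    (h : (evalY (y : LaurentSeries ℚ) Φ).eval (x : LaurentSeries ℚ) = 0) :
    (evalY y Φ).eval x = 0 := by
  have h1 := evalY_eval_map
    (algebraMap ↥(modularFunctionFieldFull N) (LaurentSeries ℚ)) Φ x y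
  have h2 : (algebraMap ↥(modularFunctionFieldFull N) (LaurentSeries ℚ))
      ((evalY y Φ).eval x) = 0 := by
    rw [← h1]
    exact h
  exact (map_eq_zero _).mp h2

/-- `j(q^d)` as an element of `F_N`, for `d ∣ N`. -/
def jDFull (d : ℕ) [NeZero d] (hd : d ∣ N) : ↥(modularFunctionFieldFull N) :=
  ⟨qExpand ℚ d jq, jqd_mem_full N hd⟩

/-- `j(q^d)`, `d ∣ N`, is integral over `ℤ_(ℓ)[j(q^N)]`. -/
theorem isIntegral_jDFull (hmod : HasModPolys) (d : ℕ) [NeZero d] (hd : d ∣ N) :
    IsIntegral ↥(Algebra.adjoin ↥(GaloisRep.ratLocalizedAt ℓ) {jNFull N}) (jDFull N d hd) := by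
  obtain ⟨P, hP, h⟩ := exists_monic_evalY_jS_of_dvd ℚ hmod hd (NeZero.ne N)
  rw [jS_one_eq_jqNModC, jS_one_eq_jqNModC] at h
  exact isIntegral_adjoin_of_evalY hP
    (evalY_eval_eq_zero_of_coe N (x := jDFull N d hd) (y := jNFull N) h)

/-- (C2a) `j` is integral over `ℤ_(ℓ)[j(q^N)]`. -/
theorem isIntegral_jFull_adjoin_jNFull (hmod : HasModPolys) :
    IsIntegral ↥(Algebra.adjoin ↥(GaloisRep.ratLocalizedAt ℓ) {jNFull N}) (jFull N) := by
  obtain ⟨P, hP, h⟩ := exists_monic_evalY_jS_of_dvd ℚ hmod (one_dvd N) (NeZero.ne N)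
  rw [jS_one_one, jS_one_eq_jqNModC] at h
  exact isIntegral_adjoin_of_evalY hP
    (evalY_eval_eq_zero_of_coe N (x := jFull N) (y := jNFull N) h)

/-- (C2b) `j(q^N)` is integral over `ℤ_(ℓ)[j]`. -/
theorem isIntegral_jNFull_adjoin_jFull (hmod : HasModPolys) :
    IsIntegral ↥(Algebra.adjoin ↥(GaloisRep.ratLocalizedAt ℓ) {jFull N}) (jNFull N) := by
  obtain ⟨P, hP, h⟩ := exists_monic_evalY_jS_of_dvd' ℚ hmod (one_dvd N) (NeZero.ne N)
  rw [jS_one_one, jS_one_eq_jqNModC] at h
  exact isIntegral_adjoin_of_evalY hP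
    (evalY_eval_eq_zero_of_coe N (x := jNFull N) (y := jFull N) h)

/-- (C2c) The finite chart algebra is the integral closure of `ℤ_(ℓ)[j(q^N)]` in `F_N`. -/
theorem mem_chartAlgFin_iff_isIntegral (hmod : HasModPolys) (x : ↥(modularFunctionFieldFull N)) :
    x ∈ chartAlgFin N ℓ ↔
      IsIntegral ↥(Algebra.adjoin ↥(GaloisRep.ratLocalizedAt ℓ) {jNFull N}) x := by
  rw [mem_chartAlg_iff]
  constructor
  · intro h
    exact isIntegral_adjoin_trans_base (isIntegral_jFull_adjoin_jNFull N ℓ hmod) h
  · intro h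
    exact isIntegral_adjoin_trans_base (isIntegral_jNFull_adjoin_jFull N ℓ hmod) h

end Fermat.Agent.S28.H66
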