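/-
S28 / package M5, bridge (C4), characteristic-`ℓ` half (helper66).

From `n ≤ [𝔽_ℓ(j̄(q^d) : d ∣ N) : 𝔽_ℓ(j̄(q^N))]` we extract `n` monomials in the integral series
`j(q^d)` (`d ∣ N`) whose reductions mod `ℓ` are linearly independent over `𝔽_ℓ(j̄(q^N))`.
-/
import Mathlib
import Fermat.Agent.S28.Integrality
import Fermat.Agent.S28.H66.IntF
import Fermat.Prelude.Def_ModularCurve_X0ModL

set_option autoImplicit false

noncomputable section

namespace Fermat.Agent.S28.H66

open ModularCurve Polynomial

section LinearAlgebra

/-- From a spanning set of a space of dimension at least `n`, one can pick `n` linearly independent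
vectors. -/
theorem exists_fin_linearIndependent_of_le_rank {K : Type*} {V : Type} [DivisionRing K]
    [AddCommGroup V] [Module K V] (T : Set V) {n : ℕ}
    (h : (n : Cardinal) ≤ Module.rank K ↥(Submodule.span K T)) :
    ∃ v : Fin n → V, (∀ i, v i ∈ T) ∧ LinearIndependent K v := by
  obtain ⟨b, hbT, hspan, hli⟩ := exists_linearIndependent K T
  have hrank : Module.rank K ↥(Submodule.span K b) = Cardinal.mk ↥b :=
    rank_span_set (linearIndependent_subtype_iff.mp hli)
  have h2 : Cardinal.mk (Fin n) ≤ Cardinal.mk ↥b := by
    rw [Cardinal.mk_fin, ← hrank, hspan]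
    exact h
  obtain ⟨emb⟩ := (Cardinal.le_def _ _).mp h2
  exact ⟨fun i => (emb i : V), fun i => hbT (emb i).2, hli.comp emb emb.injective⟩

end LinearAlgebra

section Transcendence

variable (K : Type*) [Field K] (N : ℕ) [NeZero N]

/-- `j̄(q^N)` satisfies no nonzero polynomial over the constants. -/
theorem eq_zero_of_eval₂_jqNModC_eq_zero (f : Polynomial K)
    (h : f.eval₂ (HahnSeries.C : K →+* LaurentSeries K) (jqNModC K N) = 0) : f = 0 := by
  -- reduce to `N = 1`
  have h1 : qExpand K N (f.eval₂ (HahnSeries.C : K →+* LaurentSeries K) (jqModC K)) = 0 := by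
    rw [Polynomial.hom_eval₂]
    have hC : (qExpand K N).comp (HahnSeries.C : K →+* LaurentSeries K) = HahnSeries.C := by
      ext c : 1
      exact qExpand_C N c
    rw [hC]
    exact h
  have h2 : f.eval₂ (HahnSeries.C : K →+* LaurentSeries K) (jqModC K) = 0 :=
    qExpand_injective N (by rw [h1, map_zero])
  by_contra hf
  have h3 := congrArg (fun x : LaurentSeries K => x.coeff (-(f.natDegree : ℤ))) h2
  simp only [HahnSeries.coeff_zero] at h3
  rw [Polynomial.eval₂_eq_sum_range, HahnSeries.coeff_sum] at h3
  have hterm : ∀ i ∈ Finset.range (f.natDegree + 1),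
      ((HahnSeries.C : K →+* LaurentSeries K) (f.coeff i) * jqModC K ^ i).coeff
          (-(f.natDegree : ℤ)) = if i = f.natDegree then f.coeff f.natDegree else 0 := by
    intro i hi
    have hi' : i ≤ f.natDegree := Nat.lt_succ_iff.1 (Finset.mem_range.1 hi)
    rw [HahnSeries.C_apply, HahnSeries.coeff_single_zero_mul]
    split_ifs with hid
    · rw [hid, coeff_jqModC_pow_self, mul_one]
    · have hlt : i < f.natDegree := lt_of_le_of_ne hi' hid
      rw [coeff_jqModC_pow_of_lt K (by exact_mod_cast (by omega : -(f.natDegree : ℤ) < -(i : ℤ))),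
        mul_zero]
  rw [Finset.sum_congr rfl hterm, Finset.sum_ite_eq' (Finset.range (f.natDegree + 1)) f.natDegree,
    if_pos (Finset.mem_range.2 (Nat.lt_succ_self _))] at h3
  exact hf (Polynomial.leadingCoeff_eq_zero.1 (by rw [← h3, Polynomial.coeff_natDegree]))

end Transcendence

section ModL

variable (N : ℕ) [NeZero N]

/-- The integral series `j(q^d)`, `d ∣ N`. -/
def divisorExpansionsInt : Set (LaurentSeries ℤ) :=
  {x | ∃ (d : ℕ) (_ : NeZero d), d ∣ N ∧ x = qExpand ℤ d (jqModC ℤ)}

omit [NeZero N] in
theorem coeffMap_image_divisorExpansionsInt (K : Type*) [Field K] :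
    (coeffMap (Int.castRingHom K)) '' (divisorExpansionsInt N) = divisorExpansionsC K N := by
  ext x
  constructor
  · rintro ⟨y, ⟨d, hd, hdN, rfl⟩, rfl⟩
    exact ⟨d, hd, hdN, by rw [coeffMap_qExpand, ModularCurve.coeffMap_jqModC]⟩
  · rintro ⟨d, hd, hdN, rfl⟩
    exact ⟨qExpand ℤ d (jqModC ℤ), ⟨d, hd, hdN, rfl⟩,
      by rw [coeffMap_qExpand, ModularCurve.coeffMap_jqModC]⟩

variable (K : Type) [Field K]

theorem adjoin_jqNModC_le_fullC :
    IntermediateField.adjoin K {jqNModC K N} ≤ modularFunctionFieldFullC K N := by
  rw [IntermediateField.adjoin_le_iff]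
  rintro x hx
  rw [Set.mem_singleton_iff] at hx
  subst hx
  exact jqModCd_mem_full K N dvd_rfl

/-- Each `j̄(q^d)`, `d ∣ N`, is integral over `K(j̄(q^N))`. -/
theorem isIntegral_of_mem_divisorExpansionsC (hmod : HasModPolys) {x : LaurentSeries K}
    (hx : x ∈ divisorExpansionsC K N) :
    IsIntegral ↥(IntermediateField.adjoin K {jqNModC K N}) x := by
  obtain ⟨d, hd, hdN, rfl⟩ := hx
  obtain ⟨P, hP, h⟩ := exists_monic_evalY_jS_of_dvd K hmod hdN (NeZero.ne N)
  rw [jS_one_eq_jqNModC, jS_one_eq_jqNModC] at h
  have h1 : IsIntegral ↥(Algebra.adjoin K {jqNModC K N}) (jqNModC K d) :=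
    isIntegral_adjoin_of_evalY hP h
  refine isIntegral_of_forall_isIntegral (fun r => ?_) h1
  have hr : (r : LaurentSeries K) ∈ IntermediateField.adjoin K {jqNModC K N} :=
    IntermediateField.algebra_adjoin_le_adjoin K _ r.2
  exact isIntegral_algebraMap (x := (⟨r, hr⟩ : ↥(IntermediateField.adjoin K {jqNModC K N})))

/-- The function field is spanned over `K(j̄(q^N))` by the monomials in the `j̄(q^d)`. -/
theorem mem_span_closure_of_mem_fullC (hmod : HasModPolys) {x : LaurentSeries K}
    (hx : x ∈ modularFunctionFieldFullC K N) :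
    x ∈ Submodule.span ↥(IntermediateField.adjoin K {jqNModC K N})
      (Submonoid.closure (divisorExpansionsC K N) : Set (LaurentSeries K)) := by
  have halg : ∀ y ∈ divisorExpansionsC K N,
      IsAlgebraic ↥(IntermediateField.adjoin K {jqNModC K N}) y :=
    fun y hy => (isIntegral_of_mem_divisorExpansionsC N K hmod hy).isAlgebraic
  have h1 := IntermediateField.adjoin_toSubalgebra_of_isAlgebraic halg
  have h2 : x ∈ (IntermediateField.adjoin ↥(IntermediateField.adjoin K {jqNModC K N})
      (divisorExpansionsC K N)).toSubalgebra := by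
    change x ∈ IntermediateField.adjoin ↥(IntermediateField.adjoin K {jqNModC K N})
      (divisorExpansionsC K N)
    have hx' : x ∈ IntermediateField.adjoin K (divisorExpansionsC K N) := hx
    clear hx
    induction hx' using IntermediateField.adjoin_induction with
    | mem y hy => exact IntermediateField.subset_adjoin _ _ hy
    | algebraMap c =>
      exact IntermediateField.algebraMap_mem _
        (algebraMap K ↥(IntermediateField.adjoin K {jqNModC K N}) c)
    | add y z _ _ hy hz => exact add_mem hy hz
    | inv y _ hy => exact inv_mem hy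
    | mul y z _ _ hy hz => exact mul_mem hy hz
  rw [h1] at h2
  have h3 : x ∈ Subalgebra.toSubmodule (Algebra.adjoin ↥(IntermediateField.adjoin K {jqNModC K N})
      (divisorExpansionsC K N)) := h2
  rw [Algebra.adjoin_eq_span] at h3
  exact h3

/-- (C4), characteristic-`ℓ` half: `n` monomials in the integral series `j(q^d)` whose reductions
are linearly independent over `K(j̄(q^N))`. -/
theorem exists_indep_monomials (hmod : HasModPolys) {n : ℕ}
    (h : n ≤ IntermediateField.relfinrank (IntermediateField.adjoin K {jqNModC K N})
      (modularFunctionFieldFullC K N)) :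
    ∃ u : Fin n → LaurentSeries ℤ, (∀ i, u i ∈ Submonoid.closure (divisorExpansionsInt N)) ∧
      LinearIndependent ↥(IntermediateField.adjoin K {jqNModC K N})
        (fun i => coeffMap (Int.castRingHom K) (u i)) := by
  have hEF := adjoin_jqNModC_le_fullC N K
  have hrank : (n : Cardinal) ≤ Module.rank ↥(IntermediateField.adjoin K {jqNModC K N})
      ↥(Submodule.span ↥(IntermediateField.adjoin K {jqNModC K N})
        (Submonoid.closure (divisorExpansionsC K N) : Set (LaurentSeries K))) := by
    by_cases hn : n = 0
    · subst hn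
      simp
    · rw [IntermediateField.relfinrank_eq_finrank_of_le hEF] at h
      have hpos : 0 < Module.finrank ↥(IntermediateField.adjoin K {jqNModC K N})
          ↥(IntermediateField.extendScalars hEF) := by omega
      have hfree : Module.Free ↥(IntermediateField.adjoin K {jqNModC K N})
          ↥(IntermediateField.extendScalars hEF) := Module.Free.of_divisionRing _ _
      have hfin : Module.Finite ↥(IntermediateField.adjoin K {jqNModC K N})
          ↥(IntermediateField.extendScalars hEF) := Module.finite_of_finrank_pos hpos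
      let ι : ↥(IntermediateField.extendScalars hEF) →ₗ[↥(IntermediateField.adjoin K {jqNModC K N})]
          ↥(Submodule.span ↥(IntermediateField.adjoin K {jqNModC K N})
            (Submonoid.closure (divisorExpansionsC K N) : Set (LaurentSeries K))) :=
        LinearMap.codRestrict _ (IntermediateField.extendScalars hEF).val.toLinearMap
          (fun x => mem_span_closure_of_mem_fullC N K hmod x.2)
      have hι : Function.Injective ι := by
        intro x y hxy
        apply Subtype.ext
        exact congrArg (fun z : ↥(Submodule.span ↥(IntermediateField.adjoin K {jqNModC K N})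
            (Submonoid.closure (divisorExpansionsC K N) : Set (LaurentSeries K))) =>
              (z : LaurentSeries K)) hxy
      calc (n : Cardinal) ≤ (Module.finrank ↥(IntermediateField.adjoin K {jqNModC K N})
              ↥(IntermediateField.extendScalars hEF) : Cardinal) := by exact_mod_cast h
        _ = Module.rank ↥(IntermediateField.adjoin K {jqNModC K N})
              ↥(IntermediateField.extendScalars hEF) := Module.finrank_eq_rank _ _
        _ ≤ _ := LinearMap.rank_le_of_injective ι hι
  obtain ⟨v, hvT, hli⟩ := exists_fin_linearIndependent_of_le_rank _ hrank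
  have hT : Submonoid.closure (divisorExpansionsC K N) =
      (Submonoid.closure (divisorExpansionsInt N)).map (coeffMap (Int.castRingHom K)) := by
    rw [MonoidHom.map_mclosure, coeffMap_image_divisorExpansionsInt]
  have hv : ∀ i, ∃ u ∈ Submonoid.closure (divisorExpansionsInt N),
      coeffMap (Int.castRingHom K) u = v i := by
    intro i
    have := hvT i
    rw [SetLike.mem_coe, hT] at this
    exact Submonoid.mem_map.mp this
  choose u hu huv using hv
  refine ⟨u, hu, ?_⟩
  have : (fun i => coeffMap (Int.castRingHom K) (u i)) = v := funext huv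
  rw [this]
  exact hli

end ModL

end Fermat.Agent.S28.H66
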