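/-
S28 / package M5, bridge (C4) (helper66): from the characteristic-`ℓ` degree bound
`n ≤ [𝔽_ℓ(j̄(q^d) : d ∣ N) : 𝔽_ℓ(j̄(q^N))]` to `n` elements of `F_N`, integral over
`A = ℤ_(ℓ)[j(q^N)]`, which are linearly independent over `A / ℓ` modulo the series all of whose
`q`-coefficients are divisible by `ℓ`.
-/
import Mathlib
import Fermat.Agent.S28.H66.IndepModL
import Fermat.Agent.S28.H85.Red

set_option autoImplicit false

noncomputable section

namespace Fermat.Agent.S28.H66

open ModularCurve ModularCurve.IgusaScheme Polynomial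
open Fermat.Agent.S28.H85

set_option linter.unusedSectionVars false

variable (N : ℕ) [NeZero N] (ℓ : ℕ) [Fact ℓ.Prime]

/-- Monomials in the integral series `j(q^d)` lift to elements of `F_N` which are integral over
`ℤ_(ℓ)[j(q^N)]`. -/
theorem exists_lift_of_mem_closure (hmod : HasModPolys) {u : LaurentSeries ℤ}
    (hu : u ∈ Submonoid.closure (divisorExpansionsInt N)) :
    ∃ m : ↥(modularFunctionFieldFull N),
      (m : LaurentSeries ℚ) = coeffMap (Int.castRingHom ℚ) u ∧
      IsIntegral ↥(Algebra.adjoin ↥(GaloisRep.ratLocalizedAt ℓ) {jNFull N}) m := by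
  induction hu using Submonoid.closure_induction with
  | mem y hy =>
    obtain ⟨d, hd, hdN, rfl⟩ := hy
    refine ⟨jDFull N d hdN, ?_, isIntegral_jDFull N ℓ hmod d hdN⟩
    rw [coeffMap_qExpand, ModularCurve.coeffMap_jqModC]
    rfl
  | one => exact ⟨1, by simp, isIntegral_one⟩
  | mul y z _ _ hy hz =>
    obtain ⟨m1, h1, i1⟩ := hy
    obtain ⟨m2, h2, i2⟩ := hz
    refine ⟨m1 * m2, ?_, i1.mul i2⟩
    rw [map_mul, ← h1, ← h2]
    rfl

/-- `q`-expansions of elements of `ℤ_(ℓ)[j(q^N)]` are `ℓ`-integral. -/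
theorem coe_mem_intSubring_of_mem_adjoin_jNFull {y : ↥(modularFunctionFieldFull N)}
    (hy : y ∈ Algebra.adjoin ↥(GaloisRep.ratLocalizedAt ℓ) {jNFull N}) :
    (y : LaurentSeries ℚ) ∈ intSubring ℓ := by
  refine coe_mem_intSubring_of_mem_adjoin N ?_ hy
  intro s hs
  rw [Set.mem_singleton_iff] at hs
  subst hs
  exact qExpand_jq_mem_intSubring N

theorem redSeries_eq_of_eq_coeffMap {x : LaurentSeries ℚ} (hx : x ∈ intSubring ℓ)
    (y : LaurentSeries ℤ) (h : x = coeffMap (Int.castRingHom ℚ) y) :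
    redSeries ℓ ⟨x, hx⟩ = coeffMap (Int.castRingHom (ZMod ℓ)) y := by
  subst h
  exact redSeries_coeffMap_intCast ℓ y

/-- The reduction mod `ℓ` of the `q`-expansion of `f(j(q^N))`, for `f ∈ ℤ_(ℓ)[X]`. -/
def redPoly : Polynomial ↥(GaloisRep.ratLocalizedAt ℓ) →+* LaurentSeries (ZMod ℓ) :=
  (redSeries ℓ).comp
    (RingHom.codRestrict
      ((algebraMap ↥(modularFunctionFieldFull N) (LaurentSeries ℚ)).comp
        (Polynomial.aeval (R := ↥(GaloisRep.ratLocalizedAt ℓ)) (jNFull N)).toRingHom)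
      (intSubring ℓ)
      (fun _ => coe_mem_intSubring_of_mem_adjoin_jNFull N ℓ
        (Polynomial.aeval_mem_adjoin_singleton _ _)))

theorem redPoly_apply (f : Polynomial ↥(GaloisRep.ratLocalizedAt ℓ)) :
    redPoly N ℓ f = redSeries ℓ
      ⟨((Polynomial.aeval (R := ↥(GaloisRep.ratLocalizedAt ℓ)) (jNFull N) f :
          ↥(modularFunctionFieldFull N)) : LaurentSeries ℚ),
        coe_mem_intSubring_of_mem_adjoin_jNFull N ℓ
          (Polynomial.aeval_mem_adjoin_singleton _ _)⟩ := rfl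

theorem redPoly_eq :
    redPoly N ℓ = Polynomial.eval₂RingHom
      ((HahnSeries.C : ZMod ℓ →+* LaurentSeries (ZMod ℓ)).comp (res ℓ))
      (jqNModC (ZMod ℓ) N) := by
  apply Polynomial.ringHom_ext
  · intro c
    rw [redPoly_apply, Polynomial.coe_eval₂RingHom, Polynomial.eval₂_C]
    ext k
    rw [redSeries_coeff]
    simp only [Polynomial.aeval_C, coe_algebraMap_ratLocalizedAt, RingHom.comp_apply,
      HahnSeries.C_apply, HahnSeries.coeff_single, res_apply]
    split_ifs <;> simp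
  · rw [redPoly_apply, Polynomial.coe_eval₂RingHom, Polynomial.eval₂_X]
    refine (redSeries_eq_of_eq_coeffMap ℓ _ (jqNModC ℤ N) ?_).trans (coeffMap_jqNModC _ N)
    rw [Polynomial.aeval_X, coe_jNFull, coeffMap_jqNModC]
    rfl

/-- If the reduction of `f(j(q^N))` vanishes then `ℓ ∣ f`. -/
theorem C_dvd_of_redPoly_eq_zero (f : Polynomial ↥(GaloisRep.ratLocalizedAt ℓ))
    (h : redPoly N ℓ f = 0) :
    Polynomial.C ((ℓ : ℕ) : ↥(GaloisRep.ratLocalizedAt ℓ)) ∣ f := by
  rw [redPoly_eq, Polynomial.coe_eval₂RingHom, ← Polynomial.eval₂_map] at h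
  have h0 := eq_zero_of_eval₂_jqNModC_eq_zero (ZMod ℓ) N _ h
  rw [Polynomial.C_dvd_iff_dvd_coeff]
  intro i
  have h1 : res ℓ (f.coeff i) = 0 := by
    have := congrArg (fun p : Polynomial (ZMod ℓ) => p.coeff i) h0
    simpa using this
  obtain ⟨c, hc, hcc⟩ := (res_eq_zero_iff ℓ _).mp h1
  refine ⟨⟨c, hc⟩, Subtype.ext ?_⟩
  rw [hcc]
  rfl

/-- (C4) From the characteristic-`ℓ` degree bound: `n` elements of `F_N`, integral over
`A = ℤ_(ℓ)[j(q^N)]`, such that any `A`-linear combination all of whose `q`-coefficients are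
divisible by `ℓ` has all its coefficients divisible by `ℓ` in `A`. -/
theorem exists_indep_of_le_relfinrank (hmod : HasModPolys) {n : ℕ}
    (h : n ≤ IntermediateField.relfinrank
      (IntermediateField.adjoin (ZMod ℓ) {jqNModC (ZMod ℓ) N})
      (modularFunctionFieldFullC (ZMod ℓ) N)) :
    ∃ m : Fin n → ↥(modularFunctionFieldFull N),
      (∀ i, IsIntegral ↥(Algebra.adjoin ↥(GaloisRep.ratLocalizedAt ℓ) {jNFull N}) (m i)) ∧
      ∀ a : Fin n → ↥(Algebra.adjoin ↥(GaloisRep.ratLocalizedAt ℓ) {jNFull N}),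
        (∀ k : ℤ, ∃ c ∈ GaloisRep.ratLocalizedAt ℓ,
          ((∑ i, a i • m i : ↥(modularFunctionFieldFull N)) : LaurentSeries ℚ).coeff k
            = (ℓ : ℚ) * c) →
        ∀ i, ((ℓ : ℕ) : ↥(Algebra.adjoin ↥(GaloisRep.ratLocalizedAt ℓ) {jNFull N})) ∣ a i := by
  classical
  obtain ⟨u, hu, hli⟩ := exists_indep_monomials N (ZMod ℓ) hmod h
  have hlift := fun i => exists_lift_of_mem_closure N ℓ hmod (hu i)
  choose m hm hmint using hlift
  refine ⟨m, hmint, fun a ha i => ?_⟩
  -- polynomials representing the coefficients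
  have hf : ∀ i, ∃ f : Polynomial ↥(GaloisRep.ratLocalizedAt ℓ),
      Polynomial.aeval (jNFull N) f = (a i : ↥(modularFunctionFieldFull N)) := by
    intro i
    have h1 : (a i : ↥(modularFunctionFieldFull N)) ∈
        (Polynomial.aeval (R := ↥(GaloisRep.ratLocalizedAt ℓ)) (jNFull N)).range := by
      rw [← Algebra.adjoin_singleton_eq_range_aeval]
      exact (a i).2
    exact h1
  choose f hf using hf
  -- everything is `ℓ`-integral
  have hA : ∀ i, ((a i : ↥(modularFunctionFieldFull N)) : LaurentSeries ℚ) ∈ intSubring ℓ :=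
    fun i => coe_mem_intSubring_of_mem_adjoin_jNFull N ℓ (a i).2
  have hM : ∀ i, (m i : LaurentSeries ℚ) ∈ intSubring ℓ := fun i => by
    rw [hm i]; exact coeffMap_intCast_mem_intSubring _
  have hsum : ((∑ i, a i • m i : ↥(modularFunctionFieldFull N)) : LaurentSeries ℚ)
      = ((∑ i, (⟨_, hA i⟩ : intSubring ℓ) * ⟨_, hM i⟩ : intSubring ℓ) : LaurentSeries ℚ) := by
    rw [AddSubmonoidClass.coe_finsetSum, AddSubmonoidClass.coe_finsetSum]
    refine Finset.sum_congr rfl fun i _ => ?_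
    rfl
  have hred : redSeries ℓ (∑ i, (⟨_, hA i⟩ : intSubring ℓ) * ⟨_, hM i⟩) = 0 := by
    rw [redSeries_eq_zero_iff]
    intro k
    rw [← hsum]
    exact ha k
  rw [map_sum] at hred
  simp only [map_mul] at hred
  -- identify the two factors
  have hredM : ∀ i, redSeries ℓ ⟨_, hM i⟩ = coeffMap (Int.castRingHom (ZMod ℓ)) (u i) :=
    fun i => redSeries_eq_of_eq_coeffMap ℓ _ _ (hm i)
  have hredA : ∀ i, redSeries ℓ ⟨_, hA i⟩ = redPoly N ℓ (f i) := by
    intro i
    rw [redPoly_apply]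
    congr 1
    exact Subtype.ext (congrArg (fun z : ↥(modularFunctionFieldFull N) => (z : LaurentSeries ℚ))
      (hf i).symm)
  -- the coefficients as elements of `𝔽_ℓ(j̄(q^N))`
  have hmemE : ∀ i, redPoly N ℓ (f i) ∈
      IntermediateField.adjoin (ZMod ℓ) {jqNModC (ZMod ℓ) N} := by
    intro i
    rw [redPoly_eq, Polynomial.coe_eval₂RingHom, ← Polynomial.eval₂_map]
    have h1 : Polynomial.eval₂ (HahnSeries.C : ZMod ℓ →+* LaurentSeries (ZMod ℓ))
        (jqNModC (ZMod ℓ) N) ((f i).map (res ℓ))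
        = Polynomial.aeval (jqNModC (ZMod ℓ) N) ((f i).map (res ℓ)) := by
      rw [Polynomial.aeval_def]
      congr 1
      ext c : 1
      rw [algebraMap_laurentSeries_eq_single]
      rfl
    rw [h1]
    exact IntermediateField.algebra_adjoin_le_adjoin (ZMod ℓ) _
      (Polynomial.aeval_mem_adjoin_singleton _ _)
  have hzero := Fintype.linearIndependent_iff.mp hli (fun i => ⟨redPoly N ℓ (f i), hmemE i⟩) (by
    rw [← hred]
    refine Finset.sum_congr rfl fun i _ => ?_
    rw [hredA, hredM]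
    rfl) i
  have hzero' : redPoly N ℓ (f i) = 0 := congrArg Subtype.val hzero
  obtain ⟨q, hq⟩ := C_dvd_of_redPoly_eq_zero N ℓ (f i) hzero'
  refine ⟨⟨Polynomial.aeval (jNFull N) q, Polynomial.aeval_mem_adjoin_singleton _ _⟩,
    Subtype.ext ?_⟩
  rw [← hf i, hq, map_mul, Polynomial.aeval_C, map_natCast]
  rfl

end Fermat.Agent.S28.H66
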