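/-
S28 / package M5, final statement (helper66 + helper41): the skeleton theorem `exists_red_chartAlg`.
Assembly of `H41.exists_red_chartAlg_of_indep` (helper41) with the bridge (C4)
`H66.exists_indep_of_le_relfinrank`.
-/
import Mathlib
import Fermat.Agent.S28.H41.M5Final
import Fermat.Agent.S28.H66.Indep

set_option autoImplicit false

namespace Fermat.Agent.S28.H66

open ModularCurve ModularCurve.IgusaScheme

/-- **M5** (exact skeleton shape): reduction mod `ℓ` of `q`-expansions on the two charts, with
kernel generated by `ℓ`. -/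
theorem exists_red_chartAlg (hmod : HasModPolys) (N : ℕ) [NeZero N] (ℓ : ℕ) [Fact ℓ.Prime]
    (_hℓN : ¬ ℓ ∣ N)
    (hdeg : 0 < IntermediateField.relfinrank (IntermediateField.adjoin ℚ {jqN N})
        (modularFunctionFieldFull N) ∧
      IntermediateField.relfinrank (IntermediateField.adjoin ℚ {jqN N})
        (modularFunctionFieldFull N) ≤
      IntermediateField.relfinrank
        (IntermediateField.adjoin (ZMod ℓ) {jqNModC (ZMod ℓ) N})
        (modularFunctionFieldFullC (ZMod ℓ) N))
    (S : Set ↥(modularFunctionFieldFull N)) (hS : S = {jFull N} ∨ S = {(jFull N)⁻¹}) :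
    ∃ red : ↥(chartAlg N ℓ S) →+* LaurentSeries (ZMod ℓ),
      ∀ x, red x = 0 → ∃ y, x = (ℓ : ↥(chartAlg N ℓ S)) * y :=
  H41.exists_red_chartAlg_of_indep N ℓ hmod hdeg
    (fun h => exists_indep_of_le_relfinrank N ℓ hmod h) S hS

end Fermat.Agent.S28.H66
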